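import Mathlib

/-!
# S43 / Alg / DPrime : the finite-level end game (lemma D', board #3414)

`V` an abelian group with additive operators `r g` (`g ∈ G`), `Jc ≤ V` a `G`-stable subgroup.
`T g x = g x + d(g) g⁻¹ x`.

Hypotheses: (CH) `T g` commutes with `G` on `Jc`; (LOC) `T Sig = 2`, `T Phi = eps (q+1)` on `Jc`;
`eps (q - 1) = c p^a`, `c` prime to `p`; (GA) every `P₁` in the `G`-stable subgroup `W ≤ Jc` (killed by `p`) is
`p^a P'` with `Sig P' = P'`, `Phi P' = eps q P'`; (TR) `β` additive and `G`-equivariant on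
`Z = {z ∈ Jc, p^a z = 0}` with `(Phi - eps) z = β ((Sig - 1) z)`.

Conclusion (`dprime`): if `κ P = P`, `P ∈ W`, then `κ g P = g P` for all `g`.
No hypothesis on `κ`, none on the parity of `p`, `a = 0` allowed (Mazur's principle).
-/

set_option autoImplicit false
set_option linter.unusedSectionVars false

namespace Fermat.Agent.S43.Alg

variable {V G : Type*} [AddCommGroup V] [Group G]

/-- `T g x = g x + d(g) g⁻¹ x`. -/
def TT (r : G → V →+ V) (d : G → ℤ) (g : G) (x : V) : V := r g x + d g • r g⁻¹ x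

theorem TT_add (r : G → V →+ V) (d : G → ℤ) (g : G) (x y : V) :
    TT r d g (x + y) = TT r d g x + TT r d g y := by
  unfold TT
  rw [map_add, map_add, smul_add]
  abel

theorem TT_zsmul (r : G → V →+ V) (d : G → ℤ) (g : G) (n : ℤ) (x : V) :
    TT r d g (n • x) = n • TT r d g x := by
  unfold TT
  rw [map_zsmul, map_zsmul, smul_add, smul_comm]

theorem TT_sub (r : G → V →+ V) (d : G → ℤ) (g : G) (x y : V) :
    TT r d g (x - y) = TT r d g x - TT r d g y := by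
  unfold TT
  rw [map_sub, map_sub, smul_sub]
  abel

/-- polarised Cayley-Hamilton, for `h` with scalar trace `τ`. -/
theorem polar (r : G → V →+ V) (hrm : ∀ g h x, r (g * h) x = r g (r h x))
    (Jc : AddSubgroup V) (hJ : ∀ g, ∀ x ∈ Jc, r g x ∈ Jc)
    (d : G → ℤ) (hd : ∀ g h, ∀ x ∈ Jc, d (g * h) • x = (d g * d h) • x)
    (hCH : ∀ g h, ∀ x ∈ Jc, r h (TT r d g x) = TT r d g (r h x))
    (g h : G) (τ : ℤ) (hτ : ∀ x ∈ Jc, TT r d h x = τ • x) (x : V) (hx : x ∈ Jc) :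
    r g (r h x) + r h (r g x)
      = TT r d g (r h x) + τ • r g x + TT r d (g * h) x - τ • TT r d g x := by
  have h1 : τ • r g x = r h (r g x) + d h • r h⁻¹ (r g x) := (hτ _ (hJ g x hx)).symm
  have h2 : τ • r g⁻¹ x = r h (r g⁻¹ x) + d h • r h⁻¹ (r g⁻¹ x) := (hτ _ (hJ g⁻¹ x hx)).symm
  have h3 : r h (r g x) + d g • r h (r g⁻¹ x) = r g (r h x) + d g • r g⁻¹ (r h x) := by
    have := hCH g h x hx
    unfold TT at this
    rw [map_add, map_zsmul] at this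
    exact this
  have h4 : TT r d (g * h) x = r g (r h x) + (d g * d h) • r h⁻¹ (r g⁻¹ x) := by
    unfold TT
    rw [hrm, mul_inv_rev, hrm, hd g h _ (hJ _ _ (hJ _ _ hx))]
  have h5 : τ • TT r d g x = τ • r g x + d g • (τ • r g⁻¹ x) := by
    unfold TT
    rw [smul_add, smul_comm]
  rw [h4, h5, h2, h1]
  unfold TT
  rw [smul_add, smul_smul]
  have h3' : d g • r g⁻¹ (r h x) = r h (r g x) + d g • r h (r g⁻¹ x) - r g (r h x) := by
    rw [h3]; abel
  rw [h3']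
  abel

section main

variable (r : G → V →+ V) (hr1 : ∀ x, r 1 x = x) (hrm : ∀ g h x, r (g * h) x = r g (r h x))
  (Jc : AddSubgroup V) (hJ : ∀ g, ∀ x ∈ Jc, r g x ∈ Jc)
  (d : G → ℤ) (hd : ∀ g h, ∀ x ∈ Jc, d (g * h) • x = (d g * d h) • x)
  (hCH : ∀ g h, ∀ x ∈ Jc, r h (TT r d g x) = TT r d g (r h x))
  (p : ℤ) (a : ℕ) (Sig Phi : G) (eps c q : ℤ) (hq : eps * (q - 1) = c * p ^ a)
  (htS : ∀ x ∈ Jc, TT r d Sig x = (2 : ℤ) • x)
  (htP : ∀ x ∈ Jc, TT r d Phi x = (eps * (q + 1)) • x)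
  (W : AddSubgroup V) (hWJ : W ≤ Jc) (hWG : ∀ g, ∀ x ∈ W, r g x ∈ W)
  (hGA : ∀ P1 ∈ W, ∃ P' ∈ Jc, p ^ a • P' = P1 ∧ r Sig P' = P' ∧ r Phi P' = (eps * q) • P')
  (β : V → V)
  (hβa : ∀ x ∈ Jc, p ^ a • x = 0 → ∀ y ∈ Jc, p ^ a • y = 0 → β (x + y) = β x + β y)
  (hβg : ∀ g, ∀ x ∈ Jc, p ^ a • x = 0 → β (r g x) = r g (β x))
  (hTR : ∀ z ∈ Jc, p ^ a • z = 0 → r Phi z - eps • z = β (r Sig z - z))

/-- the subgroup `Z = {z ∈ Jc, p^a z = 0}`. -/
def ZZ (Jc : AddSubgroup V) (p : ℤ) (a : ℕ) : AddSubgroup V where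
  carrier := {z | z ∈ Jc ∧ p ^ a • z = 0}
  zero_mem' := ⟨Jc.zero_mem, smul_zero _⟩
  add_mem' := by
    rintro x y ⟨hx, hx'⟩ ⟨hy, hy'⟩
    exact ⟨Jc.add_mem hx hy, by rw [smul_add, hx', hy', add_zero]⟩
  neg_mem' := by
    rintro x ⟨hx, hx'⟩
    exact ⟨Jc.neg_mem hx, by rw [smul_neg, hx', neg_zero]⟩

theorem mem_ZZ {Jc : AddSubgroup V} {p : ℤ} {a : ℕ} {z : V} :
    z ∈ ZZ Jc p a ↔ z ∈ Jc ∧ p ^ a • z = 0 := Iff.rfl

include hβa in
theorem beta_hom : ∃ b : ZZ Jc p a →+ V, ∀ z : ZZ Jc p a, b z = β z :=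
  ⟨AddMonoidHom.mk' (fun z => β z) (fun x y => hβa x x.2.1 x.2.2 y y.2.1 y.2.2), fun _ => rfl⟩

include hβa in
theorem beta_neg (x : V) (hx : x ∈ ZZ Jc p a) : β (-x) = - β x := by
  obtain ⟨b, hb⟩ := beta_hom Jc p a β hβa
  have := b.map_neg ⟨x, hx⟩
  rw [hb, hb] at this
  exact this

include hβa in
theorem beta_zsmul (n : ℤ) (x : V) (hx : x ∈ ZZ Jc p a) : β (n • x) = n • β x := by
  obtain ⟨b, hb⟩ := beta_hom Jc p a β hβa
  have := b.map_zsmul n ⟨x, hx⟩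
  rw [hb, hb] at this
  exact this

include hJ in
theorem r_mem_ZZ (g : G) (x : V) (hx : x ∈ ZZ Jc p a) : r g x ∈ ZZ Jc p a :=
  ⟨hJ g x hx.1, by rw [← map_zsmul, hx.2, map_zero]⟩

include hJ in
theorem TT_mem_ZZ (g : G) (x : V) (hx : x ∈ ZZ Jc p a) : TT r d g x ∈ ZZ Jc p a :=
  (ZZ Jc p a).add_mem (r_mem_ZZ r Jc hJ p a g x hx)
    ((ZZ Jc p a).zsmul_mem (r_mem_ZZ r Jc hJ p a g⁻¹ x hx) _)

include hJ in
theorem TT_mem (g : G) (x : V) (hx : x ∈ Jc) : TT r d g x ∈ Jc :=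
  Jc.add_mem (hJ g x hx) (Jc.zsmul_mem (hJ g⁻¹ x hx) _)

include hJ hβa hβg in
theorem beta_TT (g : G) (x : V) (hx : x ∈ ZZ Jc p a) : β (TT r d g x) = TT r d g (β x) := by
  have h1 := r_mem_ZZ r Jc hJ p a g x hx
  have h2 := r_mem_ZZ r Jc hJ p a g⁻¹ x hx
  have h3 := (ZZ Jc p a).zsmul_mem h2 (d g)
  unfold TT
  rw [hβa _ h1.1 h1.2 _ h3.1 h3.2, beta_zsmul Jc p a β hβa _ _ h2, hβg g x hx.1 hx.2,
    hβg g⁻¹ x hx.1 hx.2]

include hWJ hWG hGA in
theorem sig_W (P : V) (hP : P ∈ W) : r Sig P = P := by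
  obtain ⟨P', -, h1, h2, -⟩ := hGA P hP
  rw [← h1, map_zsmul, h2]

include hJ hq hWJ hWG hGA hβa hTR in
/-- `(*)` : `A g Q = c g P + β (N g Q)`. -/
theorem star (Q : V) (hQ : Q ∈ Jc) (hP : p ^ a • Q ∈ W) (g : G) :
    r Sig (r g Q) - r g Q ∈ ZZ Jc p a ∧
    r Phi (r g Q) - eps • r g Q = c • r g (p ^ a • Q) + β (r Sig (r g Q) - r g Q) := by
  have hgP := hWG g _ hP
  obtain ⟨P', hP', h1, h2, h3⟩ := hGA _ hgP
  have hgQ := hJ g Q hQ
  have hN : r Sig (r g Q) - r g Q ∈ ZZ Jc p a := by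
    refine ⟨Jc.sub_mem (hJ _ _ hgQ) hgQ, ?_⟩
    rw [smul_sub, ← map_zsmul, ← map_zsmul, sig_W r Jc p a Sig Phi eps q W hWJ hWG hGA _ hgP,
      sub_self]
  refine ⟨hN, ?_⟩
  have hz : P' - r g Q ∈ ZZ Jc p a :=
    ⟨Jc.sub_mem hP' hgQ, by rw [smul_sub, h1, ← map_zsmul, sub_self]⟩
  have h4 := hTR _ hz.1 hz.2
  rw [map_sub, map_sub, h2, h3] at h4
  have h5 : P' - r Sig (r g Q) - (P' - r g Q) = -(r Sig (r g Q) - r g Q) := by abel
  rw [h5, beta_neg Jc p a β hβa _ hN] at h4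
  have h6 : (eps * q) • P' - eps • P' = c • r g (p ^ a • Q) := by
    rw [← h1, smul_smul, ← hq, ← sub_smul]
    congr 1
    ring
  have h7 : (eps * q) • P' - r Phi (r g Q) - eps • (P' - r g Q)
      = ((eps * q) • P' - eps • P') - (r Phi (r g Q) - eps • r g Q) := by
    rw [smul_sub]; abel
  rw [h7, h6] at h4
  have : r Phi (r g Q) - eps • r g Q
      = c • r g (p ^ a • Q) - (c • r g (p ^ a • Q) - (r Phi (r g Q) - eps • r g Q)) := by abel
  rw [this, h4]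
  abel

include hr1 hrm hJ hd hCH hq htS htP hWJ hWG hGA hβa hβg hTR in
/-- `(**)` : `c g P = t(gA) Q - β (t(gN) Q)`. -/
theorem star2 (Q : V) (hQ : Q ∈ Jc) (hP : p ^ a • Q ∈ W) (g : G) :
    c • r g (p ^ a • Q)
      = (TT r d (g * Phi) Q - eps • TT r d g Q) - β (TT r d (g * Sig) Q - TT r d g Q) := by
  obtain ⟨hNg, hg⟩ := star r Jc hJ p a Sig Phi eps c q hq W hWJ hWG hGA β hβa hTR Q hQ hP g
  obtain ⟨hN1, h1⟩ := star r Jc hJ p a Sig Phi eps c q hq W hWJ hWG hGA β hβa hTR Q hQ hP 1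
  simp only [hr1] at hN1 h1
  have pP := polar r hrm Jc hJ d hd hCH g Phi _ htP Q hQ
  have pS := polar r hrm Jc hJ d hd hCH g Sig _ htS Q hQ
  -- notation
  set N1 : V := r Sig Q - Q with hN1def
  set P : V := p ^ a • Q with hPdef
  -- `g (*)_1`
  have e1 : r g (r Phi Q) - eps • r g Q = c • r g P + β (r g N1) := by
    have := congrArg (r g) h1
    rw [map_sub, map_zsmul, map_add, map_zsmul, ← hβg g N1 hN1.1 hN1.2] at this
    exact this
  -- `T g (*)_1`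
  have e2 : TT r d g (r Phi Q) - eps • TT r d g Q = c • TT r d g P + β (TT r d g N1) := by
    have := congrArg (TT r d g) h1
    rw [TT_sub, TT_zsmul, TT_add, TT_zsmul,
      ← beta_TT r Jc hJ d p a β hβa hβg g N1 hN1] at this
    exact this
  -- the `N` side
  have hTN : TT r d g N1 ∈ ZZ Jc p a := TT_mem_ZZ r Jc hJ d p a g N1 hN1
  have hgN : r g N1 ∈ ZZ Jc p a := r_mem_ZZ r Jc hJ p a g N1 hN1
  have e3 : (r Sig (r g Q) - r g Q) + r g N1
      = TT r d g N1 + (TT r d (g * Sig) Q - TT r d g Q) := by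
    rw [hN1def, map_sub, TT_sub]
    have : r Sig (r g Q) - r g Q + (r g (r Sig Q) - r g Q)
        = (r g (r Sig Q) + r Sig (r g Q)) - (2 : ℤ) • r g Q := by
      rw [two_smul]; abel
    rw [this, pS, two_smul, two_smul]
    abel
  have htN : TT r d (g * Sig) Q - TT r d g Q ∈ ZZ Jc p a := by
    have : TT r d (g * Sig) Q - TT r d g Q
        = ((r Sig (r g Q) - r g Q) + r g N1) - TT r d g N1 := by rw [e3]; abel
    rw [this]
    exact (ZZ Jc p a).sub_mem ((ZZ Jc p a).add_mem hNg hgN) hTN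
  have e4 : β (r Sig (r g Q) - r g Q) + β (r g N1)
      = β (TT r d g N1) + β (TT r d (g * Sig) Q - TT r d g Q) := by
    rw [← hβa _ hNg.1 hNg.2 _ hgN.1 hgN.2, e3, hβa _ hTN.1 hTN.2 _ htN.1 htN.2]
  -- the `A` side
  have e5 : (r Phi (r g Q) - eps • r g Q) + (r g (r Phi Q) - eps • r g Q)
      = (TT r d g (r Phi Q) - eps • TT r d g Q) + c • r g P
        + (TT r d (g * Phi) Q - eps • TT r d g Q) - c • TT r d g P := by
    have h8 : c • r g P = (eps * (q - 1)) • r g Q := by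
      rw [hPdef, map_zsmul, smul_smul, hq]
    have h9 : c • TT r d g P = (eps * (q - 1)) • TT r d g Q := by
      rw [hPdef, TT_zsmul, smul_smul, hq]
    have : r Phi (r g Q) - eps • r g Q + (r g (r Phi Q) - eps • r g Q)
        = (r g (r Phi Q) + r Phi (r g Q)) - (2 * eps) • r g Q := by
      rw [mul_smul, two_smul]; abel
    rw [this, pP, h8, h9]
    module
  rw [hg, e1, e2] at e5
  -- conclude
  have e6 : c • r g P + β (r Sig (r g Q) - r g Q) + (c • r g P + β (r g N1))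
      = c • r g P + c • r g P + (β (TT r d g N1) + β (TT r d (g * Sig) Q - TT r d g Q)) := by
    rw [← e4]; abel
  rw [e6] at e5
  have : c • r g P = (c • r g P + c • r g P
      + (β (TT r d g N1) + β (TT r d (g * Sig) Q - TT r d g Q)))
      - c • r g P - β (TT r d g N1) - β (TT r d (g * Sig) Q - TT r d g Q) := by abel
  rw [this, e5]
  abel

include hr1 hrm hJ hd hCH hq htS htP hWJ hWG hGA hβa hβg hTR in
/-- **Lemma D'.** -/
theorem dprime (hc : IsCoprime c p) (hWp : ∀ x ∈ W, p • x = 0) (κ : G) (P : V) (hP : P ∈ W)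
    (hκ : r κ P = P) (g : G) : r κ (r g P) = r g P := by
  obtain ⟨Q, hQ, hQP, -, -⟩ := hGA P hP
  have hP1 : p ^ a • Q ∈ W := hQP ▸ hP
  have hκQ : r κ Q ∈ Jc := hJ κ Q hQ
  have hP2 : p ^ a • r κ Q ∈ W := by rw [← map_zsmul, hQP, hκ]; exact hP
  have s1 := star2 r hr1 hrm Jc hJ d hd hCH p a Sig Phi eps c q hq htS htP W hWJ hWG hGA β hβa hβg
    hTR Q hQ hP1 g
  have s2 := star2 r hr1 hrm Jc hJ d hd hCH p a Sig Phi eps c q hq htS htP W hWJ hWG hGA β hβa hβg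
    hTR (r κ Q) hκQ hP2 g
  -- membership of `t(gN) Q` in `Z`
  have htN : TT r d (g * Sig) Q - TT r d g Q ∈ ZZ Jc p a := by
    refine ⟨Jc.sub_mem (TT_mem r Jc hJ d _ Q hQ) (TT_mem r Jc hJ d _ Q hQ), ?_⟩
    rw [smul_sub, ← TT_zsmul, ← TT_zsmul, hQP]
    have hS : ∀ h : G, r Sig (r h P) = r h P := fun h =>
      sig_W r Jc p a Sig Phi eps q W hWJ hWG hGA _ (hWG h P hP)
    have hSi : r Sig⁻¹ P = P := by
      have := hS 1
      rw [hr1] at this
      calc r Sig⁻¹ P = r Sig⁻¹ (r Sig P) := by rw [this]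
        _ = P := by rw [← hrm, inv_mul_cancel, hr1]
    have hdS : d Sig • P = P := by
      have := htS P (hWJ hP)
      unfold TT at this
      have h1 := hS 1
      rw [hr1] at h1
      rw [h1, hSi, two_smul] at this
      exact add_left_cancel this
    unfold TT
    have hgi : g⁻¹ = g⁻¹ := rfl
    rw [hrm, mul_inv_rev, hrm]
    have h1 := hS 1
    rw [hr1] at h1
    have h2 : r Sig⁻¹ (r g⁻¹ P) = r g⁻¹ P := by
      calc r Sig⁻¹ (r g⁻¹ P) = r Sig⁻¹ (r Sig (r g⁻¹ P)) := by rw [hS g⁻¹]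
        _ = r g⁻¹ P := by rw [← hrm, inv_mul_cancel, hr1]
    rw [h1, h2, hd g Sig _ (hJ _ _ (hWJ hP)), mul_smul]
    have h3 : d Sig • r g⁻¹ P = r g⁻¹ P := by
      rw [← map_zsmul, hdS]
    rw [h3, sub_self]
  have e : r κ (c • r g (p ^ a • Q)) = c • r g (p ^ a • r κ Q) := by
    rw [s1, s2, map_sub, map_sub, map_zsmul, hCH _ κ Q hQ, hCH _ κ Q hQ,
      ← hβg κ _ htN.1 htN.2, map_sub, hCH _ κ Q hQ, hCH _ κ Q hQ]
  rw [← map_zsmul (r κ) (p ^ a) Q, hQP, hκ, map_zsmul] at e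
  obtain ⟨u, v, huv⟩ := hc
  have hx : p • (r κ (r g P) - r g P) = 0 :=
    hWp _ (W.sub_mem (hWG κ _ (hWG g P hP)) (hWG g P hP))
  have hy : c • (r κ (r g P) - r g P) = 0 := by rw [smul_sub, e, sub_self]
  have : r κ (r g P) - r g P = 0 := by
    calc r κ (r g P) - r g P = (u * c + v * p) • (r κ (r g P) - r g P) := by rw [huv, one_smul]
      _ = 0 := by rw [add_smul, mul_smul, mul_smul, hx, hy, smul_zero, smul_zero, add_zero]
  exact sub_eq_zero.1 this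

end main

end Fermat.Agent.S43.Alg
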